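import Fermat.Agent.Corollaries.RN.Seq

/-!
# The theorem of Ramanujan and Nagell

The equation `x ^ 2 + 7 = 2 ^ n` has in integers only the solutions `n = 3, 4, 5, 7, 15`,
`|x| = 1, 3, 5, 11, 181` (conjectured by Ramanujan in 1913, proved by Nagell in 1948).
-/

namespace Fermat.Agent.Cor.RN

theorem step {m : ℕ} (ih : ∀ x y : ℤ, Odd x → Odd y → x ^ 2 + 7 * y ^ 2 = 2 ^ (m + 3) →
    (x = v (m + 1) ∨ x = -v (m + 1)) ∧ (y = u (m + 1) ∨ y = -u (m + 1)))
    {x y : ℤ} (hy : Odd y) (h : x ^ 2 + 7 * y ^ 2 = 2 ^ (m + 4)) (h4 : 4 ∣ y - x) :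
    (x = v (m + 2) ∨ x = -v (m + 2)) ∧ (y = u (m + 2) ∨ y = -u (m + 2)) := by
  obtain ⟨z, hz⟩ := h4
  have hx : x = y - 4 * z := by linarith
  have hpow : (2 : ℤ) ^ (m + 4) = 2 * 2 ^ (m + 3) := by ring
  have hpow' : (2 : ℤ) ^ (m + 3) = 8 * 2 ^ m := by ring
  have h1 : (2 * y - z) ^ 2 + 7 * z ^ 2 = 2 ^ (m + 3) := by
    rw [hx, hpow] at h
    have : 2 * ((2 * y - z) ^ 2 + 7 * z ^ 2) = 2 * 2 ^ (m + 3) := by rw [← h]; ring
    linarith
  have hz' : Odd z := by
    rcases Int.even_or_odd' z with ⟨t, rfl | rfl⟩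
    · exfalso
      rw [hpow'] at h1
      have h2 : y ^ 2 = 2 * (2 ^ m + y * t - 4 * t ^ 2) := by linarith
      have h3 : Odd (y ^ 2) := hy.pow
      rw [h2] at h3
      exact absurd (even_two_mul _) (Int.not_even_iff_odd.2 h3)
    · exact odd_two_mul_add_one t
  have hx' : Odd (2 * y - z) := (even_two_mul y).sub_odd hz'
  obtain ⟨h2, h3⟩ := ih _ _ hx' hz' h1
  have b1 := two_mul_u_succ (m + 1)
  have b2 := v_succ (m + 1)
  have b3 := v_succ m
  have hbad : y ≠ 2 * u m ∧ y ≠ -(2 * u m) := by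
    constructor
    · rintro rfl
      exact absurd (even_two_mul _) (Int.not_even_iff_odd.2 hy)
    · rintro rfl
      exact absurd (even_two_mul _).neg (Int.not_even_iff_odd.2 hy)
  rw [show m + 1 + 1 = m + 2 by ring] at b1 b2
  rcases h2 with h2 | h2 <;> rcases h3 with h3 | h3
  · exact ⟨Or.inl (by linarith), Or.inl (by linarith)⟩
  · exact absurd (by linarith) hbad.2
  · exact absurd (by linarith) hbad.1
  · exact ⟨Or.inr (by linarith), Or.inr (by linarith)⟩

theorem eq_of_sq_add (m : ℕ) : ∀ x y : ℤ, Odd x → Odd y → x ^ 2 + 7 * y ^ 2 = 2 ^ (m + 3) →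
    (x = v (m + 1) ∨ x = -v (m + 1)) ∧ (y = u (m + 1) ∨ y = -u (m + 1)) := by
  induction m with
  | zero =>
    intro x y _ hy h
    have h0 : y ≠ 0 := by
      rintro rfl
      exact absurd hy (by decide)
    norm_num at h
    have h1 : 1 ≤ y ^ 2 := by
      have := sq_pos_of_ne_zero h0
      omega
    have h2 : y ^ 2 = 1 := by nlinarith [sq_nonneg x]
    have h3 : x ^ 2 = 1 := by linarith
    have e1 : v (0 + 1) = 1 := rfl
    have e2 : u (0 + 1) = 1 := rfl
    rw [e1, e2]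
    exact ⟨sq_eq_sq_iff_eq_or_eq_neg.1 (by rw [h3]; norm_num),
      sq_eq_sq_iff_eq_or_eq_neg.1 (by rw [h2]; norm_num)⟩
  | succ m ih =>
    intro x y hx hy h
    have h4 : 4 ∣ y - x ∨ 4 ∣ -y - x := by
      obtain ⟨a, rfl⟩ := hx
      obtain ⟨b, rfl⟩ := hy
      omega
    rcases h4 with h4 | h4
    · exact step ih hy h h4
    · obtain ⟨h5, h6⟩ := step ih hy.neg (by rw [neg_sq]; exact h) h4
      refine ⟨h5, ?_⟩
      rcases h6 with h6 | h6
      · right; linarith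
      · left; linarith

theorem v_odd {m : ℕ} (hm : 0 < m) : Odd (v m) := by
  have := u_odd hm
  rw [v, Int.odd_iff]
  omega

/-- **Euler**: for `n ≥ 3` there is exactly one pair of odd natural numbers `x`, `y` with
`x ^ 2 + 7 y ^ 2 = 2 ^ n`. -/
theorem existsUnique_sq_add {n : ℕ} (hn : 3 ≤ n) :
    ∃! p : ℕ × ℕ, Odd p.1 ∧ Odd p.2 ∧ p.1 ^ 2 + 7 * p.2 ^ 2 = 2 ^ n := by
  obtain ⟨m, rfl⟩ : ∃ m, n = m + 3 := ⟨n - 3, by omega⟩
  refine ⟨((v (m + 1)).natAbs, (u (m + 1)).natAbs), ⟨?_, ?_, ?_⟩, ?_⟩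
  · exact Int.natAbs_odd.2 (v_odd (by omega))
  · exact Int.natAbs_odd.2 (Int.odd_iff.2 (u_odd (by omega)))
  · have h := v_sq_add (m + 1)
    zify
    rw [sq_abs, sq_abs]
    exact h
  · rintro ⟨x, y⟩ ⟨hx, hy, h⟩
    have h1 : (x : ℤ) ^ 2 + 7 * (y : ℤ) ^ 2 = 2 ^ (m + 3) := by exact_mod_cast h
    obtain ⟨h2, h3⟩ := eq_of_sq_add m x y (by exact_mod_cast hx) (by exact_mod_cast hy) h1
    rw [Prod.mk.injEq]
    omega

/-- **The theorem of Ramanujan and Nagell** (Nagell 1948). -/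
theorem ramanujan_nagell {x : ℤ} {n : ℕ} : x ^ 2 + 7 = 2 ^ n ↔
    (n = 3 ∧ |x| = 1) ∨ (n = 4 ∧ |x| = 3) ∨ (n = 5 ∧ |x| = 5) ∨ (n = 7 ∧ |x| = 11) ∨
      (n = 15 ∧ |x| = 181) := by
  constructor
  · intro h
    have hn : 3 ≤ n := by
      by_contra hn
      have h1 : n = 0 ∨ n = 1 ∨ n = 2 := by omega
      rcases h1 with rfl | rfl | rfl <;> norm_num at h <;> nlinarith [sq_nonneg x]
    obtain ⟨m, rfl⟩ : ∃ m, n = m + 3 := ⟨n - 3, by omega⟩
    have hx : Odd x := by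
      rcases Int.even_or_odd' x with ⟨t, rfl | rfl⟩
      · exfalso
        have h1 : (2 : ℤ) ^ (m + 3) = 2 * (4 * 2 ^ m) := by ring
        rw [h1] at h
        have h2 : 7 = 2 * (4 * 2 ^ m - 2 * t ^ 2) := by linarith
        omega
      · exact odd_two_mul_add_one t
    obtain ⟨h1, h2⟩ := eq_of_sq_add m x 1 hx odd_one (by rw [← h]; ring)
    have h3 : |x| = |v (m + 1)| := by
      rcases h1 with h1 | h1 <;> rw [h1]
      rw [abs_neg]
    rw [h3]
    rcases h2 with h2 | h2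
    · rcases u_eq_one_iff.1 h2.symm with h4 | h4
      · have : m = 0 := by omega
        subst this
        left; exact ⟨rfl, rfl⟩
      · have : m = 1 := by omega
        subst this
        right; left; exact ⟨rfl, by decide⟩
    · rcases u_eq_neg_one_iff.1 (by linarith : u (m + 1) = -1) with h4 | h4 | h4
      · have : m = 2 := by omega
        subst this
        right; right; left; exact ⟨rfl, by decide⟩
      · have : m = 4 := by omega
        subst this
        right; right; right; left; exact ⟨rfl, by decide⟩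
      · have : m = 12 := by omega
        subst this
        right; right; right; right; exact ⟨rfl, by decide⟩
  · rintro (⟨rfl, h⟩ | ⟨rfl, h⟩ | ⟨rfl, h⟩ | ⟨rfl, h⟩ | ⟨rfl, h⟩) <;>
    · rw [← sq_abs, h]; norm_num

/-- The theorem of Ramanujan and Nagell in natural numbers. -/
theorem ramanujan_nagell_nat {x n : ℕ} : x ^ 2 + 7 = 2 ^ n ↔
    (x, n) ∈ ({(1, 3), (3, 4), (5, 5), (11, 7), (181, 15)} : Finset (ℕ × ℕ)) := by
  have h : x ^ 2 + 7 = 2 ^ n ↔ (x : ℤ) ^ 2 + 7 = 2 ^ n := by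
    constructor <;> intro h <;> exact_mod_cast h
  rw [h, ramanujan_nagell]
  simp only [Finset.mem_insert, Finset.mem_singleton, Prod.mk.injEq, Nat.abs_cast]
  omega

/-- **The triangular Mersenne numbers** are `0`, `1`, `3`, `15` and `4095`. -/
theorem triangular_mersenne {m k : ℕ} : m * (m + 1) / 2 = 2 ^ k - 1 ↔
    (m, k) ∈ ({(0, 0), (1, 1), (2, 2), (5, 4), (90, 12)} : Finset (ℕ × ℕ)) := by
  have h2 : 2 ∣ m * (m + 1) := (Nat.even_mul_succ_self m).two_dvd
  obtain ⟨t, ht⟩ := h2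
  have hk : 1 ≤ 2 ^ k := Nat.one_le_two_pow
  have h : m * (m + 1) / 2 = 2 ^ k - 1 ↔ (2 * m + 1) ^ 2 + 7 = 2 ^ (k + 3) := by
    have h3 : (2 * m + 1) ^ 2 + 7 = 8 * (t + 1) := by
      have : (2 * m + 1) ^ 2 + 7 = 4 * (m * (m + 1)) + 8 := by ring
      rw [this, ht]; ring
    rw [h3, ht, Nat.mul_div_cancel_left _ two_pos, pow_add]
    omega
  rw [h, ramanujan_nagell_nat]
  simp only [Finset.mem_insert, Finset.mem_singleton, Prod.mk.injEq]
  omega

/-- Every integer `c` is a value `u m` for at most three `m` (and `-1` for three: `3, 5, 13`). -/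
theorem card_le_three (c : ℤ) : {m : ℕ | u m = c}.Finite ∧ {m : ℕ | u m = c}.ncard ≤ 3 := by
  have hinj : Set.InjOn (fun m : ℕ => m % 3) {m : ℕ | u m = c} := by
    intro m hm n hn h
    have hm' : u m = c := hm
    have hn' : u n = c := hn
    exact u_injective h (hm'.trans hn'.symm)
  have hmap : ∀ m ∈ {m : ℕ | u m = c}, (fun m : ℕ => m % 3) m ∈ ((Finset.range 3 : Finset ℕ) :
      Set ℕ) := fun m _ => by
    simp only [Finset.coe_range, Set.mem_Iio]
    omega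
  refine ⟨Set.Finite.of_injOn hmap hinj (Finset.finite_toSet _), ?_⟩
  have := Set.ncard_le_ncard_of_injOn _ hmap hinj (Finset.finite_toSet _)
  rwa [Set.ncard_coe_finset, Finset.card_range] at this

end Fermat.Agent.Cor.RN
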