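import Mathlib

/-!
# The sequence of Ramanujan and Nagell

`u 0 = 0`, `u 1 = 1`, `u (m + 2) = u (m + 1) - 2 u m` and the companion sequence `v`: for
`α = (1 + √-7) / 2` we have `α ^ m = (v m + u m √-7) / 2`.

* `v_sq_add`: `v m ^ 2 + 7 u m ^ 2 = 2 ^ (m + 2)`;
* `eq_of_sq_add`: for `m ≥ 1` these are, up to signs, the only odd solutions of
  `x ^ 2 + 7 y ^ 2 = 2 ^ (m + 2)`;
* `u_injective`: `u` takes no value twice on a residue class modulo `3` (a `7`-adic argument).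
-/

namespace Fermat.Agent.Cor.RN

/-- `u m = (α ^ m - β ^ m) / (α - β)` for `α, β = (1 ± √-7) / 2`. -/
def u : ℕ → ℤ
  | 0 => 0
  | 1 => 1
  | (m + 2) => u (m + 1) - 2 * u m

/-- `v m = α ^ m + β ^ m` for `α, β = (1 ± √-7) / 2`. -/
def v (m : ℕ) : ℤ := 2 * u (m + 1) - u m

@[simp] theorem u_zero : u 0 = 0 := rfl
@[simp] theorem u_one : u 1 = 1 := rfl
theorem u_add_two (m : ℕ) : u (m + 2) = u (m + 1) - 2 * u m := rfl
@[simp] theorem v_zero : v 0 = 2 := rfl
@[simp] theorem v_one : v 1 = 1 := rfl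

theorem two_mul_u_succ (m : ℕ) : 2 * u (m + 1) = u m + v m := by rw [v]; ring

theorem v_succ (m : ℕ) : v (m + 1) = u (m + 1) - 4 * u m := by rw [v, u_add_two]; ring

theorem two_mul_v_succ (m : ℕ) : 2 * v (m + 1) = v m - 7 * u m := by
  rw [v_succ, v]; ring

theorem v_add_two (m : ℕ) : v (m + 2) = v (m + 1) - 2 * v m := by
  rw [v, v, v, u_add_two (m + 1), u_add_two m]; ring

theorem u_v_add (m k : ℕ) :
    2 * u (m + k) = u m * v k + v m * u k ∧ 2 * v (m + k) = v m * v k - 7 * (u m * u k) := by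
  induction k with
  | zero => simp; constructor <;> ring
  | succ k ih =>
    obtain ⟨h1, h2⟩ := ih
    have a1 := two_mul_u_succ (m + k)
    have a2 := two_mul_v_succ (m + k)
    have b1 := two_mul_u_succ k
    have b2 := two_mul_v_succ k
    rw [add_assoc] at a1 a2
    constructor
    · have : 2 * (2 * u (m + (k + 1))) = 2 * (u m * v (k + 1) + v m * u (k + 1)) := by
        linear_combination 2 * a1 + h1 + h2 - u m * b2 - v m * b1
      linarith
    · have : 2 * (2 * v (m + (k + 1))) = 2 * (v m * v (k + 1) - 7 * (u m * u (k + 1))) := by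
        linear_combination 2 * a2 + h2 - 7 * h1 - v m * b2 + 7 * u m * b1
      linarith

theorem v_sq_add (m : ℕ) : v m ^ 2 + 7 * u m ^ 2 = 2 ^ (m + 2) := by
  induction m with
  | zero => norm_num
  | succ m ih =>
    have b1 := two_mul_u_succ m
    have b2 := two_mul_v_succ m
    have h : 4 * (v (m + 1) ^ 2 + 7 * u (m + 1) ^ 2) = 4 * 2 ^ (m + 1 + 2) := by
      have e1 : 4 * v (m + 1) ^ 2 = (v m - 7 * u m) ^ 2 := by rw [← b2]; ring
      have e2 : 4 * u (m + 1) ^ 2 = (u m + v m) ^ 2 := by rw [← b1]; ring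
      have e3 : (2 : ℤ) ^ (m + 1 + 2) = 2 * 2 ^ (m + 2) := by ring
      rw [e3, ← ih]
      linear_combination e1 + 7 * e2
    linarith

theorem u_add_two_mul (n k : ℕ) : u (n + 2 * k) = v k * u (n + k) - 2 ^ k * u n := by
  have h1 := (u_v_add (n + k) k).1
  have h2 := u_v_add n k
  have h3 := v_sq_add k
  rw [show n + k + k = n + 2 * k by ring] at h1
  have h4 : (2 : ℤ) ^ (k + 2) = 4 * 2 ^ k := by ring
  rw [h4] at h3
  have : 4 * u (n + 2 * k) = 4 * (v k * u (n + k) - 2 ^ k * u n) := by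
    linear_combination 2 * h1 - v k * h2.1 + u k * h2.2 - u n * h3
  linarith

/-- The quotients `u (t k) / u k`. -/
def w (k : ℕ) : ℕ → ℤ
  | 0 => 0
  | 1 => 1
  | (t + 2) => v k * w k (t + 1) - 2 ^ k * w k t

theorem u_mul (k t : ℕ) : u (t * k) = u k * w k t ∧ u ((t + 1) * k) = u k * w k (t + 1) := by
  induction t with
  | zero => simp [w]
  | succ t ih =>
    refine ⟨ih.2, ?_⟩
    have h := u_add_two_mul (t * k) k
    rw [show t * k + 2 * k = (t + 1 + 1) * k by ring, show t * k + k = (t + 1) * k by ring,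
      ih.1, ih.2] at h
    rw [h, w]
    ring

theorem v_mod (j : ℕ) : v (3 * j) % 7 = 2 ∧ v (3 * j + 1) % 7 = 1 := by
  induction j with
  | zero => decide
  | succ j ih =>
    have h2 := v_add_two (3 * j)
    have h3 := v_add_two (3 * j + 1)
    have h4 := v_add_two (3 * j + 2)
    rw [show 3 * j + 1 + 2 = 3 * (j + 1) by ring, show 3 * j + 1 + 1 = 3 * j + 2 by ring] at h3
    rw [show 3 * j + 2 + 2 = 3 * (j + 1) + 1 by ring, show 3 * j + 2 + 1 = 3 * (j + 1) by ring]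
      at h4
    omega

theorem two_pow_mod (j : ℕ) : (2 : ℤ) ^ (3 * j) % 7 = 1 := by
  rw [pow_mul]
  have h := (show ((2 : ℤ) ^ 3) ≡ 1 [ZMOD 7] by decide).pow j
  rw [one_pow] at h
  exact h

theorem w_mod {k : ℕ} (hk : 3 ∣ k) (t : ℕ) : (7 : ℤ) ∣ w k t - t ∧ (7 : ℤ) ∣ w k (t + 1) - (t + 1) := by
  obtain ⟨j, rfl⟩ := hk
  have h1 := (v_mod j).1
  have h2 := two_pow_mod j
  have h1' : (7 : ℤ) ∣ v (3 * j) - 2 := Int.dvd_self_sub_of_emod_eq h1
  have h2' : (7 : ℤ) ∣ 2 ^ (3 * j) - 1 := Int.dvd_self_sub_of_emod_eq h2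
  induction t with
  | zero => simp [w]
  | succ t ih =>
    refine ⟨by exact_mod_cast ih.2, ?_⟩
    have h3 : w (3 * j) (t + 1 + 1) - ((t + 1 : ℕ) + 1) =
        (v (3 * j) - 2) * w (3 * j) (t + 1) + 2 * (w (3 * j) (t + 1) - (t + 1))
        - (2 ^ (3 * j) - 1) * w (3 * j) t - (w (3 * j) t - t) := by
      rw [w]; push_cast; ring
    rw [h3]
    exact dvd_sub (dvd_sub (dvd_add (h1'.mul_right _) (ih.2.mul_left _)) (h2'.mul_right _)) ih.1

theorem w_seven (k : ℕ) :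
    w k 7 = 7 * ((2 ^ k) ^ 3 - 7 * (2 * (2 ^ k) ^ 2 * u k ^ 2 - 7 * 2 ^ k * u k ^ 4 +
      7 * u k ^ 6)) := by
  have h := v_sq_add k
  have h4 : (2 : ℤ) ^ (k + 2) = 4 * 2 ^ k := by ring
  rw [h4] at h
  have hv : v k ^ 2 = 4 * 2 ^ k - 7 * u k ^ 2 := by linarith
  have hw : w k 7 = (v k ^ 2) ^ 3 - 5 * (v k ^ 2) ^ 2 * 2 ^ k + 6 * v k ^ 2 * (2 ^ k) ^ 2
      - (2 ^ k) ^ 3 := by
    simp only [w]; ring
  rw [hw, hv]
  ring

theorem not_seven_dvd_two_pow (k : ℕ) : ¬ (7 : ℤ) ∣ 2 ^ k := by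
  intro h
  have h7 : Prime (7 : ℤ) := by norm_num
  have := h7.dvd_of_dvd_pow h
  norm_num at this

theorem exists_u (l : ℕ) : ∃ c : ℤ, u (3 * 7 ^ l) = 7 ^ l * c ∧ ¬ (7 : ℤ) ∣ c := by
  have h7 : Prime (7 : ℤ) := by norm_num
  induction l with
  | zero => exact ⟨-1, by decide, by norm_num⟩
  | succ l ih =>
    obtain ⟨c, hc, hc7⟩ := ih
    have h := (u_mul (3 * 7 ^ l) 7).1
    rw [w_seven, hc] at h
    refine ⟨c * ((2 ^ (3 * 7 ^ l)) ^ 3 - 7 * (2 * (2 ^ (3 * 7 ^ l)) ^ 2 * u (3 * 7 ^ l) ^ 2 -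
      7 * 2 ^ (3 * 7 ^ l) * u (3 * 7 ^ l) ^ 4 + 7 * u (3 * 7 ^ l) ^ 6)), ?_, ?_⟩
    · rw [show 3 * 7 ^ (l + 1) = 7 * (3 * 7 ^ l) by ring, h, hc]
      ring
    · intro hd
      rcases h7.dvd_or_dvd hd with hd | hd
      · exact hc7 hd
      · have := (dvd_sub_left (Dvd.intro _ rfl)).1 hd
        rw [← pow_mul] at this
        exact not_seven_dvd_two_pow _ this

/-- The exact power of `7` in `u d`, `3 ∣ d`, and `v d ≡ 2` modulo `7 ^ (l + 1)`. -/
theorem exists_of_three_dvd {d : ℕ} (hd : 0 < d) (h3 : 3 ∣ d) :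
    ∃ (l : ℕ) (c : ℤ), u d = 7 ^ l * c ∧ ¬ (7 : ℤ) ∣ c ∧ (7 : ℤ) ^ (l + 1) ∣ v d - 2 := by
  have h7 : Prime (7 : ℤ) := by norm_num
  obtain ⟨l, e, he, hde⟩ := Nat.exists_eq_pow_mul_and_not_dvd hd.ne' 7 (by norm_num)
  have h3e : 3 ∣ e := by
    rw [hde] at h3
    exact (Nat.Coprime.dvd_of_dvd_mul_left (Nat.Coprime.pow_right l (by norm_num)) h3)
  obtain ⟨t, rfl⟩ := h3e
  have hdt : d = t * (3 * 7 ^ l) := by rw [hde]; ring
  obtain ⟨c, hc, hc7⟩ := exists_u l
  have hw := (w_mod (k := 3 * 7 ^ l) (Dvd.intro _ rfl) t).1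
  have hu := (u_mul (3 * 7 ^ l) t).1
  rw [hc, ← hdt, mul_assoc] at hu
  refine ⟨l, _, hu, ?_, ?_⟩
  · intro hcd
    rcases h7.dvd_or_dvd hcd with h | h
    · exact hc7 h
    · have h1 : (7 : ℤ) ∣ (t : ℤ) := (dvd_sub_right h).1 hw
      have h2 : 7 ∣ t := by exact_mod_cast h1
      exact he (h2.mul_left 3)
  · have h2d : (7 : ℤ) ^ (l + 1) ∣ 2 ^ d - 1 := by
      have h1 : (7 : ℤ) ^ (l + 1) ∣ 8 ^ 7 ^ l - 1 ^ 7 ^ l := by
        have := dvd_sub_pow_of_dvd_sub (R := ℤ) (p := 7) (a := 8) (b := 1) (by norm_num) l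
        exact_mod_cast this
      rw [one_pow] at h1
      have h2 : (2 : ℤ) ^ d = (8 ^ 7 ^ l) ^ t := by
        rw [hdt, show (8 : ℤ) = 2 ^ 3 by norm_num, ← pow_mul, ← pow_mul]
        congr 1; ring
      rw [h2]
      have := sub_dvd_pow_sub_pow ((8 : ℤ) ^ 7 ^ l) 1 t
      rw [one_pow] at this
      exact h1.trans this
    have hsq := v_sq_add d
    have h4 : (2 : ℤ) ^ (d + 2) = 4 * 2 ^ d := by ring
    rw [h4] at hsq
    have hprod : (7 : ℤ) ^ (l + 1) ∣ (v d - 2) * (v d + 2) := by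
      have h5 : (v d - 2) * (v d + 2) = 4 * (2 ^ d - 1) - 7 * u d ^ 2 := by linear_combination hsq
      rw [h5]
      refine dvd_sub (h2d.mul_left _) ?_
      rw [hu, show (7 : ℤ) * (7 ^ l * (c * w (3 * 7 ^ l) t)) ^ 2 =
        7 ^ (l + 1) * (7 ^ l * (c * w (3 * 7 ^ l) t) ^ 2) by ring]
      exact Dvd.intro _ rfl
    have hcop : IsCoprime ((7 : ℤ) ^ (l + 1)) (v d + 2) := by
      refine IsCoprime.pow_left ?_
      rw [h7.irreducible.coprime_iff_not_dvd]
      have hvd := (v_mod (t * 7 ^ l)).1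
      rw [show 3 * (t * 7 ^ l) = d by rw [hdt]; ring] at hvd
      omega
    exact hcop.dvd_of_dvd_mul_right hprod

/-- **The sequence `u` takes no value twice on a residue class modulo `3`.** -/
theorem u_ne {m d : ℕ} (hd : 0 < d) (h3 : 3 ∣ d) : u (m + d) ≠ u m := by
  intro h
  have h7 : Prime (7 : ℤ) := by norm_num
  obtain ⟨l, c, hu, hc, hv⟩ := exists_of_three_dvd hd h3
  have h1 := (u_v_add m d).1
  rw [h] at h1
  have h2 : v m * u d = -(u m * (v d - 2)) := by linear_combination -h1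
  have h3 : (7 : ℤ) ^ (l + 1) ∣ v m * u d := by
    rw [h2]
    exact (hv.mul_left _).neg_right
  rw [hu, show v m * (7 ^ l * c) = 7 ^ l * (v m * c) by ring, pow_succ] at h3
  have h4 := (mul_dvd_mul_iff_left (pow_ne_zero l (by norm_num : (7 : ℤ) ≠ 0))).1 h3
  have h5 := (h7.dvd_or_dvd h4).resolve_right hc
  have h6 := v_sq_add m
  have h8 : (7 : ℤ) ∣ 2 ^ (m + 2) := by
    rw [← h6]
    exact dvd_add (dvd_pow h5 two_ne_zero) (Dvd.intro _ rfl)
  exact not_seven_dvd_two_pow _ h8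

theorem u_injective {m n : ℕ} (h3 : m % 3 = n % 3) (h : u m = u n) : m = n := by
  rcases lt_trichotomy m n with h1 | h1 | h1
  · obtain ⟨d, rfl⟩ := Nat.exists_eq_add_of_lt h1
    exact absurd h.symm (u_ne (d := d + 1) (by omega) (by omega))
  · exact h1
  · obtain ⟨d, rfl⟩ := Nat.exists_eq_add_of_lt h1
    exact absurd h (u_ne (d := d + 1) (by omega) (by omega))

theorem u_mod_four (j : ℕ) : u (2 * j + 2) % 4 = 1 ∧ u (2 * j + 3) % 4 = 3 := by
  induction j with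
  | zero => decide
  | succ j ih =>
    have h1 := u_add_two (2 * j + 2)
    have h2 := u_add_two (2 * j + 3)
    rw [show 2 * j + 2 + 1 = 2 * j + 3 by ring] at h1
    rw [show 2 * j + 3 + 1 = 2 * j + 2 + 2 by ring, show 2 * j + 3 + 2 = 2 * (j + 1) + 3 by ring]
      at h2
    rw [show 2 * (j + 1) + 2 = 2 * j + 2 + 2 by ring]
    omega

theorem u_odd {m : ℕ} (hm : 0 < m) : u m % 2 = 1 := by
  rcases Nat.even_or_odd' m with ⟨j, rfl | rfl⟩
  · obtain ⟨i, rfl⟩ : ∃ i, j = i + 1 := ⟨j - 1, by omega⟩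
    have := (u_mod_four i).1
    rw [show 2 * (i + 1) = 2 * i + 2 by ring]
    omega
  · rcases Nat.eq_zero_or_pos j with rfl | hj
    · decide
    · obtain ⟨i, rfl⟩ : ∃ i, j = i + 1 := ⟨j - 1, by omega⟩
      have := (u_mod_four i).2
      rw [show 2 * (i + 1) + 1 = 2 * i + 3 by ring]
      omega

theorem u_eq_neg_one_iff {m : ℕ} : u m = -1 ↔ m = 3 ∨ m = 5 ∨ m = 13 := by
  constructor
  · intro h
    have h3 : u 3 = -1 := by decide
    have h5 : u 5 = -1 := by decide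
    have h13 : u 13 = -1 := by decide
    rcases (by omega : m % 3 = 0 ∨ m % 3 = 1 ∨ m % 3 = 2) with h0 | h0 | h0
    · exact Or.inl (u_injective (by omega) (h.trans h3.symm))
    · exact Or.inr (Or.inr (u_injective (by omega) (h.trans h13.symm)))
    · exact Or.inr (Or.inl (u_injective (by omega) (h.trans h5.symm)))
  · rintro (rfl | rfl | rfl) <;> decide

theorem u_eq_one_iff {m : ℕ} : u m = 1 ↔ m = 1 ∨ m = 2 := by
  constructor
  · intro h
    rcases Nat.even_or_odd' m with ⟨j, rfl | rfl⟩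
    · -- `u (2 j) = u j v j`
      have h1 := (u_v_add j j).1
      rw [← two_mul, h] at h1
      have h2 : u j * v j = 1 := by linarith
      have h3 : u j ^ 2 = 1 := by
        rcases Int.eq_one_or_neg_one_of_mul_eq_one h2 with h | h <;> rw [h] <;> norm_num
      have h4 : v j ^ 2 = 1 := by
        have h2' : v j * u j = 1 := by linarith
        rcases Int.eq_one_or_neg_one_of_mul_eq_one h2' with h | h <;> rw [h] <;> norm_num
      have h5 := v_sq_add j
      rw [h3, h4] at h5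
      have h6 : (2 : ℤ) ^ (j + 2) = 2 ^ 3 := by rw [← h5]; norm_num
      have h7 := Int.pow_right_injective (by norm_num : 1 < (2 : ℤ).natAbs) h6
      omega
    · rcases Nat.eq_zero_or_pos j with rfl | hj
      · left; rfl
      · obtain ⟨i, rfl⟩ : ∃ i, j = i + 1 := ⟨j - 1, by omega⟩
        have := (u_mod_four i).2
        rw [show 2 * (i + 1) + 1 = 2 * i + 3 by ring] at h
        omega
  · rintro (rfl | rfl) <;> decide

end Fermat.Agent.Cor.RN
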